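import Fermat.Agent.CompactAbelian.Duality
import Mathlib.Topology.Algebra.ClopenNhdofOne

/-!
# Annihilators, connectedness and the dual group

Closed subgroups of a compact abelian group correspond to the subgroups of its dual; it is
connected iff the dual is torsion-free, totally disconnected iff the dual is torsion.
-/

set_option autoImplicit false
set_option linter.unusedSectionVars false
set_option linter.style.haveILetI false

noncomputable section

open Topology Filter
open scoped Classical Real

namespace FA.CompactAbelian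

variable {G : Type*} [TopologicalSpace G] [CommGroup G]

/-- The characters trivial on a subgroup. -/
def annih (H : Subgroup G) : Subgroup (PontryaginDual G) where
  carrier := {χ | ∀ h ∈ H, χ h = 1}
  one_mem' _ _ := PontryaginDual.one_apply _
  mul_mem' {χ φ} h h' x hx := by rw [dual_mul_apply, h x hx, h' x hx, one_mul]
  inv_mem' {χ} h x hx := by rw [dual_inv_apply, h x hx, inv_one]

theorem mem_annih {H : Subgroup G} {χ : PontryaginDual G} : χ ∈ annih H ↔ ∀ h ∈ H, χ h = 1 :=
  Iff.rfl

/-- The common kernel of a set of characters. -/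
def coannih (D : Subgroup (PontryaginDual G)) : Subgroup G where
  carrier := {x | ∀ χ ∈ D, χ x = 1}
  one_mem' χ _ := map_one χ
  mul_mem' {x y} hx hy χ hχ := by rw [map_mul, hx χ hχ, hy χ hχ, one_mul]
  inv_mem' {x} hx χ hχ := by rw [map_inv, hx χ hχ, inv_one]

theorem mem_coannih {D : Subgroup (PontryaginDual G)} {x : G} :
    x ∈ coannih D ↔ ∀ χ ∈ D, χ x = 1 :=
  Iff.rfl

theorem isClosed_coannih (D : Subgroup (PontryaginDual G)) :
    IsClosed (coannih D : Set G) := by
  show IsClosed {x : G | ∀ χ ∈ D, χ x = 1}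
  rw [show {x : G | ∀ χ ∈ D, χ x = 1} = ⋂ χ ∈ D, {x : G | χ x = 1} by ext; simp]
  exact isClosed_biInter fun χ _ => isClosed_eq (map_continuous χ) continuous_const

/-- A character of finite order has clopen fibres. -/
theorem isClopen_fibre {χ : PontryaginDual G} {n : ℕ} (hn : n ≠ 0) (h : χ ^ n = 1) (z : Circle) :
    IsClopen {x : G | χ x = z} := by
  set R : Set Circle := {u | u ^ n = 1}
  have hR : R.Finite := by
    refine Set.Finite.of_finite_image (f := fun u : Circle => ((u : Circle) : ℂ)) ?_
      Subtype.val_injective.injOn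
    refine (Polynomial.finite_setOf_isRoot
      (Polynomial.X_pow_sub_C_ne_zero (Nat.pos_of_ne_zero hn) (1 : ℂ))).subset ?_
    rintro _ ⟨u, hu, rfl⟩
    have : ((u : Circle) : ℂ) ^ n = 1 := by rw [← Circle.coe_pow, hu, Circle.coe_one]
    simp [Polynomial.IsRoot, this]
  refine ⟨isClosed_eq (map_continuous χ) continuous_const, ?_⟩
  have e : {x : G | χ x = z} = (χ ⁻¹' (R \ {z}))ᶜ := by
    ext x
    have hx : χ x ∈ R := by
      show χ x ^ n = 1
      rw [← dual_pow_apply, h, PontryaginDual.one_apply]
    simp [hx]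
  rw [e]
  exact ((hR.diff).isClosed.preimage (map_continuous χ)).isOpen_compl

variable [IsTopologicalGroup G] [CompactSpace G] [T2Space G]

/-- **A closed subgroup is the common kernel of its annihilator.** -/
theorem coannih_annih {H : Subgroup G} (hH : IsClosed (H : Set G)) : coannih (annih H) = H := by
  refine le_antisymm (fun x hx => ?_) fun x hx χ hχ => hχ x hx
  by_contra hxH
  obtain ⟨χ, hχ, hne⟩ := exists_dual_of_notMem hH hxH
  exact hne (hx χ hχ)

/-- **A subgroup of the dual is the annihilator of its common kernel.** -/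
theorem annih_coannih (D : Subgroup (PontryaginDual G)) : annih (coannih D) = D := by
  refine le_antisymm (fun χ hχ => ?_) fun χ hχ x hx => hx χ hχ
  haveI := isClosed_coannih D
  let q : G →ₜ* G ⧸ coannih D := ⟨QuotientGroup.mk' _, QuotientGroup.continuous_mk⟩
  have hfac : ∀ φ ∈ annih (coannih D), ∃ φ' : PontryaginDual (G ⧸ coannih D),
      PontryaginDual.map q φ' = φ := fun φ hφ => by
    refine ⟨(⟨QuotientGroup.lift (coannih D) φ.toMonoidHom hφ,
      (QuotientGroup.isOpenQuotientMap_mk.continuous_comp_iff).1 (map_continuous φ)⟩ :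
      G ⧸ coannih D →ₜ* Circle), PontryaginDual.ext fun x => rfl⟩
  have htop := eq_top_of_separates (D.comap (PontryaginDual.map q).toMonoidHom) fun a ha => by
    obtain ⟨x, rfl⟩ := QuotientGroup.mk_surjective a
    have hx : x ∉ coannih D := fun h => ha ((QuotientGroup.eq_one_iff x).2 h)
    rw [mem_coannih] at hx
    push Not at hx
    obtain ⟨φ, hφ, hne⟩ := hx
    obtain ⟨φ', hφ'⟩ := hfac φ fun y hy => hy φ hφ
    exact ⟨φ', show PontryaginDual.map q φ' ∈ D by rwa [hφ'],
      fun e => hne (by rw [← hφ']; exact e)⟩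
  obtain ⟨χ', rfl⟩ := hfac χ hχ
  exact htop.ge (Subgroup.mem_top χ')

/-- **Connected iff the dual is torsion-free.** -/
theorem connectedSpace_iff :
    ConnectedSpace G ↔ ∀ (χ : PontryaginDual G) (n : ℕ), n ≠ 0 → χ ^ n = 1 → χ = 1 := by
  refine ⟨fun hG χ n hn h => PontryaginDual.ext fun x => ?_, fun h => ?_⟩
  · have he := (isClopen_fibre hn h 1).eq_univ ⟨1, map_one χ⟩
    rw [PontryaginDual.one_apply]
    exact Set.eq_univ_iff_forall.1 he x
  · suffices h' : ∀ W : Set G, IsClopen W → (1 : G) ∈ W → W = Set.univ by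
      haveI : PreconnectedSpace G := preconnectedSpace_iff_clopen.2 fun s hs => by
        by_cases h1 : (1 : G) ∈ s
        · exact Or.inr (h' s hs h1)
        · exact Or.inl (Set.compl_univ_iff.1 (h' sᶜ hs.compl h1))
      exact ⟨⟨1⟩⟩
    intro W hW h1
    obtain ⟨H, hH⟩ := IsTopologicalGroup.exist_openSubgroup_sub_clopen_nhds_of_one hW h1
    refine Set.eq_univ_of_univ_subset fun x _ => hH ?_
    by_contra hx
    obtain ⟨χ, hχ, hne⟩ := exists_dual_of_notMem H.isClosed hx
    have : H.toSubgroup.FiniteIndex := H.finiteIndex_of_finite_quotient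
    refine hne ?_
    rw [h χ _ Subgroup.FiniteIndex.index_ne_zero (PontryaginDual.ext fun y => by
      rw [dual_pow_apply, ← map_pow, PontryaginDual.one_apply]
      exact hχ _ (Subgroup.pow_index_mem H.toSubgroup y)), PontryaginDual.one_apply]

/-- **Totally disconnected iff the dual is torsion.** -/
theorem totallyDisconnectedSpace_iff :
    TotallyDisconnectedSpace G ↔ ∀ χ : PontryaginDual G, ∃ n, n ≠ 0 ∧ χ ^ n = 1 := by
  refine ⟨fun hG χ => ?_, fun h => ?_⟩
  · obtain ⟨H, hH⟩ := ProfiniteGrp.exist_openNormalSubgroup_sub_open_nhds_of_one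
      ((Circle.isOpen_centeredArc (π / 2)).preimage (map_continuous χ))
      (show χ 1 ∈ Circle.centeredArc (π / 2) by
        rw [map_one, Circle.mem_centeredArc (by linarith [Real.pi_pos])]
        simp [Real.pi_pos])
    have : H.toSubgroup.FiniteIndex := H.toOpenSubgroup.finiteIndex_of_finite_quotient
    refine ⟨H.toSubgroup.index, Subgroup.FiniteIndex.index_ne_zero, PontryaginDual.ext fun y => ?_⟩
    rw [dual_pow_apply, ← map_pow, PontryaginDual.one_apply]
    refine Circle.eq_one_of_forall_pow_mem_centeredArc_pi_div_two fun k hk => ?_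
    rw [← map_pow]
    exact hH (pow_mem (Subgroup.pow_index_mem H.toSubgroup y) k)
  · haveI : TotallySeparatedSpace G := by
      refine totallySeparatedSpace_iff_exists_isClopen.2 fun x y hxy => ?_
      obtain ⟨χ, hχ⟩ := exists_dual_ne_one (a := x / y) fun e => hxy (div_eq_one.1 e)
      obtain ⟨n, hn, hn'⟩ := h χ
      refine ⟨_, isClopen_fibre hn hn' (χ x), rfl, fun e => hχ ?_⟩
      rw [map_div, div_eq_one]
      exact (Eq.symm e)
    infer_instance

end FA.CompactAbelian

end
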