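import Fermat.Agent.CompactAbelian.Equidistribution
import Mathlib.Algebra.Module.CharacterModule
import Mathlib.Topology.Algebra.PontryaginDual
import Mathlib.Analysis.SpecialFunctions.Complex.Circle

/-!
# Pontryagin duality for compact and discrete abelian groups

A subgroup of characters of a compact abelian group that separates points contains all characters,
by Stone-Weierstrass and orthogonality.  This gives both duality isomorphisms and the extension of
characters from closed subgroups.
-/

set_option autoImplicit false
set_option linter.unusedSectionVars false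
set_option linter.style.haveILetI false

noncomputable section

open MeasureTheory MeasureTheory.Measure Topology Filter
open scoped Classical

namespace FA.CompactAbelian

section general

variable {G : Type*} [TopologicalSpace G] [CommGroup G]

/-- A character as a continuous function. -/
def dualFun (χ : PontryaginDual G) : C(G, ℂ) :=
  ⟨fun x => ((χ x : Circle) : ℂ), continuous_subtype_val.comp (map_continuous χ)⟩

theorem dualFun_apply (χ : PontryaginDual G) (x : G) : dualFun χ x = ((χ x : Circle) : ℂ) := rfl

theorem dual_mul_apply (χ φ : PontryaginDual G) (x : G) : (χ * φ) x = χ x * φ x := rfl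

theorem dual_inv_apply (χ : PontryaginDual G) (x : G) : χ⁻¹ x = (χ x)⁻¹ := rfl

theorem dual_pow_apply (χ : PontryaginDual G) (n : ℕ) (x : G) : (χ ^ n) x = χ x ^ n := by
  induction n with
  | zero => rw [pow_zero, pow_zero, PontryaginDual.one_apply]
  | succ n ih => rw [pow_succ, pow_succ, dual_mul_apply, ih]

variable (G) in
/-- The evaluations. -/
def evalHom : G →* PontryaginDual (PontryaginDual G) where
  toFun g :=
    ((⟨{ toFun := fun χ => χ g, map_one' := rfl, map_mul' := fun _ _ => rfl },
      (continuous_eval_const (F := C(G, Circle)) g).comp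
        (ContinuousMonoidHom.isInducing_toContinuousMap G Circle).continuous⟩ :
      PontryaginDual G →ₜ* Circle))
  map_one' := PontryaginDual.ext fun χ => map_one χ
  map_mul' g h := PontryaginDual.ext fun χ => map_mul χ g h

theorem evalHom_apply (g : G) (χ : PontryaginDual G) : evalHom G g χ = χ g := rfl

end general

variable {G : Type*} [TopologicalSpace G] [CommGroup G] [IsTopologicalGroup G] [CompactSpace G]
  [T2Space G]

/-- **The characters separate points.** -/
theorem exists_dual_ne_one {a : G} (ha : a ≠ 1) : ∃ χ : PontryaginDual G, χ a ≠ 1 := by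
  obtain ⟨ψ, hc, hu, hne⟩ := exists_char_ne_one ha
  refine ⟨(⟨{ toFun := fun x => ⟨((ψ x : ℂˣ) : ℂ), mem_sphere_zero_iff_norm.2 (hu x)⟩
              map_one' := Circle.ext (by simp)
              map_mul' := fun x y => Circle.ext (by simp) },
    (Units.continuous_val.comp hc).subtype_mk _⟩ : G →ₜ* Circle), fun e => hne ?_⟩
  exact Units.ext (congrArg Subtype.val e)

/-- **A subgroup of characters separating points contains all of them.** -/
theorem eq_top_of_separates (H : Subgroup (PontryaginDual G))
    (h : ∀ a : G, a ≠ 1 → ∃ χ ∈ H, χ a ≠ 1) : H = ⊤ := by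
  refine (Subgroup.eq_top_iff' H).2 fun χ => ?_
  by_contra hχ
  letI : MeasurableSpace G := borel G
  haveI : BorelSpace G := ⟨rfl⟩
  set K₀ : TopologicalSpace.PositiveCompacts G := ⟨⟨Set.univ, isCompact_univ⟩, by simp⟩
  set μ := haarMeasure K₀
  haveI : IsProbabilityMeasure μ := ⟨haarMeasure_self (K₀ := K₀)⟩
  set S : Set C(G, ℂ) := dualFun '' (H : Set (PontryaginDual G)) with hS
  have hone : (1 : C(G, ℂ)) ∈ Submodule.span ℂ S :=
    Submodule.subset_span ⟨1, one_mem H, ContinuousMap.ext fun x => rfl⟩
  let A : StarSubalgebra ℂ C(G, ℂ) :=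
    { toSubalgebra := (Submodule.span ℂ S).toSubalgebra hone fun f g hf hg => by
        induction hf, hg using Submodule.span_induction₂ with
        | mem_mem x y hx hy =>
          obtain ⟨φ, hφ, rfl⟩ := hx
          obtain ⟨φ', hφ', rfl⟩ := hy
          exact Submodule.subset_span ⟨φ * φ', mul_mem hφ hφ', ContinuousMap.ext fun x => by
            rw [dualFun_apply, dual_mul_apply, ContinuousMap.mul_apply, Circle.coe_mul]; rfl⟩
        | zero_left y _ => rw [zero_mul]; exact zero_mem _
        | zero_right x _ => rw [mul_zero]; exact zero_mem _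
        | add_left x y z _ _ _ hxz hyz => rw [add_mul]; exact add_mem hxz hyz
        | add_right x y z _ _ _ hxy hxz => rw [mul_add]; exact add_mem hxy hxz
        | smul_left c x y _ _ h => rw [smul_mul_assoc]; exact Submodule.smul_mem _ c h
        | smul_right c x y _ _ h => rw [mul_smul_comm]; exact Submodule.smul_mem _ c h
      star_mem' := fun {f} hf => by
        show star f ∈ Submodule.span ℂ S
        replace hf : f ∈ Submodule.span ℂ S := hf
        induction hf using Submodule.span_induction with
        | mem x hx =>
          obtain ⟨φ, hφ, rfl⟩ := hx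
          exact Submodule.subset_span ⟨φ⁻¹, inv_mem hφ, ContinuousMap.ext fun x => by
            rw [dualFun_apply, dual_inv_apply, Circle.coe_inv_eq_conj, ContinuousMap.star_apply]
            rfl⟩
        | zero => rw [star_zero]; exact zero_mem _
        | add x y _ _ hx hy => rw [star_add]; exact add_mem hx hy
        | smul c x _ hx => rw [star_smul]; exact Submodule.smul_mem _ _ hx }
  have hA := ContinuousMap.starSubalgebra_topologicalClosure_eq_top_of_separatesPoints A
    fun x y hxy => by
      obtain ⟨φ, hφ, hne⟩ := h (x / y) fun e => hxy (div_eq_one.1 e)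
      refine ⟨_, ⟨dualFun φ, Submodule.subset_span ⟨φ, hφ, rfl⟩, rfl⟩, fun e => hne ?_⟩
      rw [map_div, div_eq_one]
      exact Circle.ext e
  let Φ : C(G, ℂ) →L[ℂ] ℂ :=
    (integralCLM μ).comp (ContinuousLinearMap.mul ℂ C(G, ℂ) (dualFun χ⁻¹))
  have hz : ∀ P ∈ Submodule.span ℂ S, Φ P = 0 := fun P hP => by
    induction hP using Submodule.span_induction with
    | mem f hf =>
      obtain ⟨φ, hφ, rfl⟩ := hf
      let ψ : G →* ℂˣ := (Circle.toUnits).comp (χ⁻¹ * φ : PontryaginDual G).toMonoidHom
      have hψ : ψ ≠ 1 := fun e => hχ (by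
        have : χ⁻¹ * φ = 1 := PontryaginDual.ext fun x =>
          Circle.ext (congrArg Units.val (DFunLike.congr_fun e x))
        rwa [inv_mul_eq_one.1 this])
      refine Eq.trans ?_ (integral_char_eq_zero μ hψ)
      exact integral_congr_ae (Eventually.of_forall fun x => rfl)
    | zero => exact map_zero Φ
    | add x y _ _ hx hy => rw [map_add, hx, hy, add_zero]
    | smul c x _ hx => rw [map_smul, hx, smul_zero]
  have h0 : Φ (dualFun χ) = 0 :=
    (isClosed_eq Φ.continuous continuous_const).closure_subset_iff.2 (fun P hP => hz P hP)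
      ((SetLike.ext_iff.1 hA (dualFun χ)).2 trivial)
  have h1 : Φ (dualFun χ) = ∫ _x, (1 : ℂ) ∂μ :=
    integral_congr_ae (Eventually.of_forall fun x => by
      show ((χ⁻¹ x : Circle) : ℂ) * ((χ x : Circle) : ℂ) = 1
      rw [dual_inv_apply, ← Circle.coe_mul, inv_mul_cancel, Circle.coe_one])
  rw [h0, integral_const, probReal_univ, one_smul] at h1
  exact zero_ne_one h1

/-- **A character trivial on a closed subgroup and not at a given point outside.** -/
theorem exists_dual_of_notMem {R : Subgroup G} (hR : IsClosed (R : Set G)) {a : G} (ha : a ∉ R) :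
    ∃ χ : PontryaginDual G, (∀ r ∈ R, χ r = 1) ∧ χ a ≠ 1 := by
  haveI := hR
  obtain ⟨χ, hχ⟩ := exists_dual_ne_one (a := (QuotientGroup.mk a : G ⧸ R))
    fun e => ha ((QuotientGroup.eq_one_iff a).1 e)
  refine ⟨PontryaginDual.map ⟨QuotientGroup.mk' R, QuotientGroup.continuous_mk⟩ χ,
    fun r hr => ?_, hχ⟩
  show χ (QuotientGroup.mk r : G ⧸ R) = 1
  rw [(QuotientGroup.eq_one_iff r).2 hr, map_one]

/-! ### Discrete groups -/

section discrete

variable {A : Type*} [TopologicalSpace A] [CommGroup A] [DiscreteTopology A]

/-- The map of the rational circle to the circle. -/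
def ratToCircle : AddCircle (1 : ℚ) →+ AddCircle (1 : ℝ) :=
  QuotientAddGroup.map _ _ (Rat.castHom ℝ).toAddMonoidHom fun q hq => by
    obtain ⟨k, rfl⟩ := AddSubgroup.mem_zmultiples_iff.1 hq
    exact AddSubgroup.mem_zmultiples_iff.2 ⟨k, by simp⟩

theorem ratToCircle_injective : Function.Injective ratToCircle := by
  refine (injective_iff_map_eq_zero ratToCircle).2 fun x => ?_
  induction x using QuotientAddGroup.induction_on with
  | H q =>
    intro hq
    obtain ⟨k, hk⟩ := AddSubgroup.mem_zmultiples_iff.1 ((QuotientAddGroup.eq_zero_iff _).1 hq)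
    refine (QuotientAddGroup.eq_zero_iff _).2 (AddSubgroup.mem_zmultiples_iff.2 ⟨k, ?_⟩)
    have hk' : ((k : ℚ) : ℝ) = (q : ℝ) := by simpa using hk
    simpa using Rat.cast_injective hk'

/-- **The characters of a discrete group separate points.** -/
theorem exists_dual_ne_one_discrete {a : A} (ha : a ≠ 1) : ∃ χ : PontryaginDual A, χ a ≠ 1 := by
  obtain ⟨c, hc⟩ := CharacterModule.exists_character_apply_ne_zero_of_ne_zero
    (a := Additive.ofMul a) ha
  refine ⟨(⟨{ toFun := fun b => AddCircle.toCircle (ratToCircle (c (Additive.ofMul b)))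
              map_one' := by rw [ofMul_one, map_zero, map_zero, AddCircle.toCircle_zero]
              map_mul' := fun b b' => by
                rw [ofMul_mul, map_add, map_add, AddCircle.toCircle_add] },
    continuous_of_discreteTopology⟩ : A →ₜ* Circle), fun e => hc ?_⟩
  refine ratToCircle_injective ?_
  rw [map_zero]
  exact AddCircle.injective_toCircle one_ne_zero (e.trans AddCircle.toCircle_zero.symm)

theorem evalHom_bijective_discrete : Function.Bijective (evalHom A) := by
  refine ⟨(injective_iff_map_eq_one _).2 fun a ha => ?_, fun c => ?_⟩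
  · by_contra hne
    obtain ⟨χ, hχ⟩ := exists_dual_ne_one_discrete hne
    exact hχ (by rw [← evalHom_apply, ha, PontryaginDual.one_apply])
  · refine MonoidHom.mem_range.1 ((eq_top_of_separates (evalHom A).range fun χ hχ => ?_).ge
      (Subgroup.mem_top c))
    by_contra hall
    push Not at hall
    exact hχ (PontryaginDual.ext fun a => hall _ ⟨a, rfl⟩)

variable (A) in
/-- **Duality for discrete groups.** -/
def discreteDuality : A ≃ₜ* PontryaginDual (PontryaginDual A) :=
  { MulEquiv.ofBijective (evalHom A) evalHom_bijective_discrete with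
    continuous_toFun := continuous_of_discreteTopology
    continuous_invFun := continuous_of_discreteTopology }

theorem discreteDuality_apply (a : A) (χ : PontryaginDual A) : discreteDuality A a χ = χ a := rfl

/-- **Characters of a subgroup of a discrete group extend.** -/
theorem exists_extension_discrete (B : Subgroup A) (φ : PontryaginDual B) :
    ∃ χ : PontryaginDual A, ∀ b : B, χ (b : A) = φ b := by
  let ι : B →ₜ* A := ⟨B.subtype, continuous_subtype_val⟩
  suffices h : φ ∈ (PontryaginDual.map ι).toMonoidHom.range by
    obtain ⟨χ, hχ⟩ := MonoidHom.mem_range.1 h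
    exact ⟨χ, fun b => DFunLike.congr_fun hχ b⟩
  have hR : IsClosed ((PontryaginDual.map ι).toMonoidHom.range : Set (PontryaginDual B)) :=
    (isCompact_range (map_continuous (PontryaginDual.map ι))).isClosed
  by_contra hφ
  obtain ⟨c, hc, hc'⟩ := exists_dual_of_notMem hR hφ
  obtain ⟨b, rfl⟩ := evalHom_bijective_discrete.2 c
  have hb : b = 1 := by
    by_contra hb
    obtain ⟨χ, hχ⟩ := exists_dual_ne_one_discrete (a := (b : A))
      fun e => hb (Subtype.ext e)
    exact hχ (hc _ ⟨χ, rfl⟩)
  exact hc' (by rw [evalHom_apply, hb, map_one])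

end discrete

/-! ### Compact groups -/

theorem continuous_evalHom : Continuous (evalHom G) :=
  (ContinuousMonoidHom.isInducing_toContinuousMap _ _).continuous_iff.2
    (ContinuousMap.continuous_of_continuous_uncurry _
      (continuous_prod_of_discrete_right.2 fun χ => map_continuous χ))

theorem evalHom_bijective : Function.Bijective (evalHom G) := by
  refine ⟨(injective_iff_map_eq_one _).2 fun g hg => ?_, fun c => ?_⟩
  · by_contra hne
    obtain ⟨χ, hχ⟩ := exists_dual_ne_one hne
    exact hχ (by rw [← evalHom_apply, hg, PontryaginDual.one_apply])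
  · by_contra hc
    obtain ⟨d, hd, hd'⟩ := exists_dual_of_notMem (R := (evalHom G).range)
      (by rw [MonoidHom.coe_range]; exact (isCompact_range continuous_evalHom).isClosed)
      (a := c) fun h => hc (MonoidHom.mem_range.1 h)
    obtain ⟨χ, rfl⟩ := evalHom_bijective_discrete.2 d
    exact hd' (by
      rw [evalHom_apply, show χ = 1 from PontryaginDual.ext fun g => hd _ ⟨g, rfl⟩, map_one])

variable (G) in
/-- **Duality for compact groups.** -/
def compactDuality : G ≃ₜ* PontryaginDual (PontryaginDual G) :=
  let e := MulEquiv.ofBijective (evalHom G) evalHom_bijective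
  { e with
    continuous_toFun := continuous_evalHom
    continuous_invFun :=
      (Continuous.homeoOfEquivCompactToT2 (f := e.toEquiv) continuous_evalHom).symm.continuous }

theorem compactDuality_apply (g : G) (χ : PontryaginDual G) : compactDuality G g χ = χ g := rfl

/-- **Characters of a closed subgroup extend.** -/
theorem exists_extension {H : Subgroup G} (hH : IsClosed (H : Set G)) (φ : PontryaginDual H) :
    ∃ χ : PontryaginDual G, ∀ h : H, χ (h : G) = φ h := by
  haveI : CompactSpace H := isCompact_iff_compactSpace.1 hH.isCompact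
  let ι : H →ₜ* G := ⟨H.subtype, continuous_subtype_val⟩
  have := eq_top_of_separates (PontryaginDual.map ι).toMonoidHom.range fun a ha => by
    obtain ⟨χ, hχ⟩ := exists_dual_ne_one (a := (a : G)) fun e => ha (Subtype.ext e)
    exact ⟨_, ⟨χ, rfl⟩, hχ⟩
  obtain ⟨χ, hχ⟩ := MonoidHom.mem_range.1 (this.ge (Subgroup.mem_top φ))
  exact ⟨χ, fun h => DFunLike.congr_fun hχ h⟩

end FA.CompactAbelian

end
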