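import Mathlib.MeasureTheory.Group.Integral
import Mathlib.MeasureTheory.Integral.Prod
import Mathlib.MeasureTheory.Measure.Haar.Basic
import Mathlib.Analysis.Complex.Basic
import Mathlib.Topology.ContinuousMap.Compact

/-!
# Convolution on a compact abelian group

For a translation invariant probability measure on a compact abelian group the translations and the
convolutions are commuting bounded operators on the continuous functions, and convolution by a
symmetric function is symmetric for the inner product of `L²`.
-/

set_option autoImplicit false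
set_option linter.unusedSectionVars false

noncomputable section

open MeasureTheory MeasureTheory.Measure Topology

namespace FA.CompactAbelian

variable {G : Type*} [TopologicalSpace G] [CommGroup G] [IsTopologicalGroup G] [CompactSpace G]
  [T2Space G]

/-- `u (g⁻¹ x)`. -/
def shift (g : G) : C(G, ℂ) →L[ℂ] C(G, ℂ) :=
  LinearMap.mkContinuous
    { toFun := fun u => u.comp ⟨fun x => g⁻¹ * x, continuous_const_mul g⁻¹⟩
      map_add' := fun _ _ => rfl
      map_smul' := fun _ _ => rfl } 1 fun u => by
      rw [one_mul]
      exact (ContinuousMap.norm_le _ (norm_nonneg u)).2 fun x => u.norm_coe_le_norm _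

theorem shift_apply (g : G) (u : C(G, ℂ)) (x : G) : shift g u x = u (g⁻¹ * x) := rfl

theorem shift_one : shift (1 : G) = 1 :=
  ContinuousLinearMap.ext fun u => ContinuousMap.ext fun x => by
    rw [shift_apply, inv_one, one_mul]
    rfl

theorem shift_mul (g h : G) : shift (g * h) = shift g * shift h :=
  ContinuousLinearMap.ext fun u => ContinuousMap.ext fun x => by
    show u ((g * h)⁻¹ * x) = u (h⁻¹ * (g⁻¹ * x))
    rw [mul_inv_rev, mul_assoc]

theorem norm_shift_le (g : G) : ‖shift g‖ ≤ 1 :=
  LinearMap.mkContinuous_norm_le _ zero_le_one _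

/-- `x ↦ (y ↦ u (y⁻¹ x))`. -/
def sweep (u : C(G, ℂ)) : C(G, C(G, ℂ)) :=
  ContinuousMap.curry ⟨fun p : G × G => u (p.2⁻¹ * p.1),
    u.continuous.comp (continuous_snd.inv.mul continuous_fst)⟩

theorem sweep_apply (u : C(G, ℂ)) (x y : G) : sweep u x y = u (y⁻¹ * x) := rfl

theorem continuous_shift_apply (u : C(G, ℂ)) : Continuous fun g : G => shift g u :=
  ContinuousMap.continuous_of_continuous_uncurry _
    (u.continuous.comp (continuous_fst.inv.mul continuous_snd))

variable [MeasurableSpace G] [BorelSpace G] (μ : Measure G) [IsMulLeftInvariant μ]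
  [IsProbabilityMeasure μ]

theorem integrable_of_continuous {f : G → ℂ} (hf : Continuous f) : Integrable f μ :=
  hf.integrable_of_hasCompactSupport (HasCompactSupport.of_compactSpace f)

theorem integrable_real_of_continuous {f : G → ℝ} (hf : Continuous f) : Integrable f μ :=
  hf.integrable_of_hasCompactSupport (HasCompactSupport.of_compactSpace f)

theorem integral_swap {F : G → G → ℂ} (hF : Continuous F.uncurry) :
    ∫ x, ∫ y, F x y ∂μ ∂μ = ∫ y, ∫ x, F x y ∂μ ∂μ :=
  integral_integral_swap_of_hasCompactSupport hF (HasCompactSupport.of_compactSpace _)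

/-- The integral as a functional. -/
def integralCLM : C(G, ℂ) →L[ℂ] ℂ :=
  LinearMap.mkContinuous
    { toFun := fun u => ∫ x, u x ∂μ
      map_add' := fun u v => integral_add (integrable_of_continuous μ u.continuous)
        (integrable_of_continuous μ v.continuous)
      map_smul' := fun c u => integral_const_mul c _ } 1 fun u => by
      refine (norm_integral_le_of_norm_le_const
        (Filter.Eventually.of_forall fun x => u.norm_coe_le_norm x)).trans_eq ?_
      rw [probReal_univ, mul_one, one_mul]

theorem integralCLM_apply (u : C(G, ℂ)) : integralCLM μ u = ∫ x, u x ∂μ := rfl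

theorem norm_integralCLM_le (u : C(G, ℂ)) : ‖integralCLM μ u‖ ≤ ‖u‖ :=
  ((integralCLM μ).le_opNorm u).trans
    (mul_le_of_le_one_left (norm_nonneg _) (LinearMap.mkContinuous_norm_le _ zero_le_one _))

/-- The convolution of two functions. -/
def conv (f u : C(G, ℂ)) : C(G, ℂ) :=
  ⟨fun x => integralCLM μ (f * sweep u x),
    (integralCLM μ).continuous.comp (continuous_const.mul (sweep u).continuous)⟩

theorem conv_apply (f u : C(G, ℂ)) (x : G) :
    conv μ f u x = ∫ y, f y * u (y⁻¹ * x) ∂μ := rfl

theorem norm_conv_le (f u : C(G, ℂ)) : ‖conv μ f u‖ ≤ 1 * ‖f‖ * ‖u‖ := by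
  rw [one_mul]
  refine (ContinuousMap.norm_le _ (by positivity)).2 fun x => ?_
  refine (norm_integralCLM_le μ _).trans ((ContinuousMap.norm_le _ (by positivity)).2 fun y => ?_)
  rw [ContinuousMap.mul_apply, norm_mul]
  exact mul_le_mul (f.norm_coe_le_norm y) (u.norm_coe_le_norm _) (norm_nonneg _) (norm_nonneg _)

/-- **Convolution as an operator.** -/
def convOp : C(G, ℂ) →L[ℂ] C(G, ℂ) →L[ℂ] C(G, ℂ) :=
  LinearMap.mkContinuous₂
    (LinearMap.mk₂ ℂ (conv μ)
      (fun f g u => ContinuousMap.ext fun x => by
        show integralCLM μ ((f + g) * sweep u x) = _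
        rw [add_mul, map_add]
        rfl)
      (fun c f u => ContinuousMap.ext fun x => by
        show integralCLM μ ((c • f) * sweep u x) = _
        rw [smul_mul_assoc, map_smul]
        rfl)
      (fun f u v => ContinuousMap.ext fun x => by
        show integralCLM μ (f * sweep (u + v) x) = _
        rw [show sweep (u + v) x = sweep u x + sweep v x from rfl, mul_add, map_add]
        rfl)
      fun c f u => ContinuousMap.ext fun x => by
        show integralCLM μ (f * sweep (c • u) x) = _
        rw [show sweep (c • u) x = c • sweep u x from rfl, mul_smul_comm, map_smul]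
        rfl) 1 (norm_conv_le μ)

theorem convOp_apply (f u : C(G, ℂ)) (x : G) :
    convOp μ f u x = ∫ y, f y * u (y⁻¹ * x) ∂μ := rfl

theorem convOp_comm (f g : C(G, ℂ)) : convOp μ f * convOp μ g = convOp μ g * convOp μ f := by
  refine ContinuousLinearMap.ext fun u => ContinuousMap.ext fun x => ?_
  show convOp μ f (convOp μ g u) x = convOp μ g (convOp μ f u) x
  simp only [convOp_apply, ← integral_const_mul]
  rw [integral_swap μ (F := fun y z => f y * (g z * u (z⁻¹ * (y⁻¹ * x))))
    (by simp only [Function.uncurry_def]; fun_prop)]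
  refine integral_congr_ae (Filter.Eventually.of_forall fun z => ?_)
  refine integral_congr_ae (Filter.Eventually.of_forall fun y => ?_)
  show f y * (g z * u (z⁻¹ * (y⁻¹ * x))) = g z * (f y * u (y⁻¹ * (z⁻¹ * x)))
  rw [mul_left_comm z⁻¹ y⁻¹ x, mul_left_comm]

theorem convOp_shift (f : C(G, ℂ)) (a : G) : convOp μ f * shift a = shift a * convOp μ f := by
  refine ContinuousLinearMap.ext fun u => ContinuousMap.ext fun x => ?_
  show convOp μ f (shift a u) x = shift a (convOp μ f u) x
  simp only [convOp_apply, shift_apply]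
  exact integral_congr_ae (Filter.Eventually.of_forall fun y => by
    show f y * u (a⁻¹ * (y⁻¹ * x)) = f y * u (y⁻¹ * (a⁻¹ * x))
    rw [mul_left_comm])

theorem convOp_shift_left (f : C(G, ℂ)) (a : G) :
    convOp μ (shift a f) = shift a * convOp μ f := by
  refine ContinuousLinearMap.ext fun u => ContinuousMap.ext fun x => ?_
  show convOp μ (shift a f) u x = shift a (convOp μ f u) x
  simp only [convOp_apply, shift_apply]
  rw [← integral_mul_left_eq_self (fun y => f (a⁻¹ * y) * u (y⁻¹ * x)) a]
  refine integral_congr_ae (Filter.Eventually.of_forall fun y => ?_)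
  show f (a⁻¹ * (a * y)) * u ((a * y)⁻¹ * x) = f y * u (y⁻¹ * (a⁻¹ * x))
  rw [inv_mul_cancel_left, mul_inv_rev, mul_assoc]

theorem continuous_convOp_shift (f : C(G, ℂ)) :
    Continuous fun a : G => convOp μ (shift a f) :=
  (convOp μ).continuous.comp (continuous_shift_apply f)

variable [IsInvInvariant μ]

/-- **Convolution by a symmetric function is symmetric.** -/
theorem integral_conj_convOp {h : C(G, ℂ)} (hh : ∀ y, starRingEnd ℂ (h y⁻¹) = h y)
    (u v : C(G, ℂ)) :
    ∫ x, starRingEnd ℂ (convOp μ h u x) * v x ∂μ =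
      ∫ x, starRingEnd ℂ (u x) * convOp μ h v x ∂μ := by
  simp only [convOp_apply, ← integral_conj, ← integral_mul_const, map_mul]
  rw [integral_swap μ (F := fun x y => starRingEnd ℂ (h y) * starRingEnd ℂ (u (y⁻¹ * x)) * v x)
    (by simp only [Function.uncurry_def]; fun_prop)]
  have h1 : ∀ y, ∫ x, starRingEnd ℂ (h y) * starRingEnd ℂ (u (y⁻¹ * x)) * v x ∂μ =
      ∫ x, starRingEnd ℂ (u x) * (starRingEnd ℂ (h y) * v (y * x)) ∂μ := fun y => by
    rw [← integral_mul_left_eq_self
      (fun x => starRingEnd ℂ (h y) * starRingEnd ℂ (u (y⁻¹ * x)) * v x) y]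
    refine integral_congr_ae (Filter.Eventually.of_forall fun x => ?_)
    show starRingEnd ℂ (h y) * starRingEnd ℂ (u (y⁻¹ * (y * x))) * v (y * x) =
      starRingEnd ℂ (u x) * (starRingEnd ℂ (h y) * v (y * x))
    rw [inv_mul_cancel_left]
    ring
  simp only [h1]
  rw [integral_swap μ (F := fun y x => starRingEnd ℂ (u x) * (starRingEnd ℂ (h y) * v (y * x)))
    (by simp only [Function.uncurry_def]; fun_prop)]
  refine integral_congr_ae (Filter.Eventually.of_forall fun x => ?_)
  show ∫ y, starRingEnd ℂ (u x) * (starRingEnd ℂ (h y) * v (y * x)) ∂μ =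
    starRingEnd ℂ (u x) * ∫ y, h y * v (y⁻¹ * x) ∂μ
  rw [integral_const_mul, ← integral_inv_eq_self (fun y => starRingEnd ℂ (h y) * v (y * x)) μ]
  simp only [hh]

end FA.CompactAbelian

end
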