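import Fermat.Agent.CompactAbelian.Separation
import Mathlib.Topology.ContinuousMap.StoneWeierstrass

/-!
# The span of the characters is dense

So a function with vanishing Fourier coefficients is zero, and bounded functionals tend to the Haar
integral as soon as they do so on the characters.
-/

set_option autoImplicit false
set_option linter.unusedSectionVars false

noncomputable section

open MeasureTheory MeasureTheory.Measure Topology Filter
open scoped Classical

namespace FA.CompactAbelian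

variable {G : Type*} [TopologicalSpace G] [CommGroup G] [IsTopologicalGroup G] [CompactSpace G]
  [T2Space G]

/-- A character as a continuous function. -/
def charFun (ψ : G →* ℂˣ) (h : Continuous ψ) : C(G, ℂ) :=
  ⟨fun x => ((ψ x : ℂˣ) : ℂ), Units.continuous_val.comp h⟩

variable (G) in
/-- The functions given by continuous unitary characters. -/
def charSet : Set C(G, ℂ) :=
  {f | ∃ ψ : G →* ℂˣ, Continuous ψ ∧ (∀ x, ‖((ψ x : ℂˣ) : ℂ)‖ = 1) ∧
    ∀ x, f x = ((ψ x : ℂˣ) : ℂ)}

theorem one_mem_charSet : (1 : C(G, ℂ)) ∈ charSet G :=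
  ⟨1, continuous_const, fun _ => by simp, fun _ => by simp⟩

theorem mul_mem_charSet {f g : C(G, ℂ)} (hf : f ∈ charSet G) (hg : g ∈ charSet G) :
    f * g ∈ charSet G := by
  obtain ⟨ψ, hc, hu, he⟩ := hf
  obtain ⟨φ, hc', hu', he'⟩ := hg
  exact ⟨ψ * φ, hc.mul hc',
    fun x => by rw [MonoidHom.mul_apply, Units.val_mul, norm_mul, hu, hu', one_mul],
    fun x => by rw [ContinuousMap.mul_apply, he, he', MonoidHom.mul_apply, Units.val_mul]⟩

theorem star_mem_charSet {f : C(G, ℂ)} (hf : f ∈ charSet G) : star f ∈ charSet G := by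
  obtain ⟨ψ, hc, hu, he⟩ := hf
  refine ⟨ψ⁻¹, hc.inv,
    fun x => by rw [MonoidHom.inv_apply, Units.val_inv_eq_inv_val, norm_inv, hu, inv_one],
    fun x => ?_⟩
  rw [ContinuousMap.star_apply, he, MonoidHom.inv_apply, Units.val_inv_eq_inv_val,
    Complex.inv_eq_conj (hu x), RCLike.star_def]

variable (G) in
/-- The trigonometric polynomials. -/
def trigPoly : StarSubalgebra ℂ C(G, ℂ) where
  toSubalgebra := (Submodule.span ℂ (charSet G)).toSubalgebra (Submodule.subset_span one_mem_charSet)
    fun f g hf hg => by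
      induction hf, hg using Submodule.span_induction₂ with
      | mem_mem x y hx hy => exact Submodule.subset_span (mul_mem_charSet hx hy)
      | zero_left y _ => rw [zero_mul]; exact zero_mem _
      | zero_right x _ => rw [mul_zero]; exact zero_mem _
      | add_left x y z _ _ _ hxz hyz => rw [add_mul]; exact add_mem hxz hyz
      | add_right x y z _ _ _ hxy hxz => rw [mul_add]; exact add_mem hxy hxz
      | smul_left c x y _ _ h => rw [smul_mul_assoc]; exact Submodule.smul_mem _ c h
      | smul_right c x y _ _ h => rw [mul_smul_comm]; exact Submodule.smul_mem _ c h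
  star_mem' {f} hf := by
    show star f ∈ Submodule.span ℂ (charSet G)
    replace hf : f ∈ Submodule.span ℂ (charSet G) := hf
    induction hf using Submodule.span_induction with
    | mem x hx => exact Submodule.subset_span (star_mem_charSet hx)
    | zero => rw [star_zero]; exact zero_mem _
    | add x y _ _ hx hy => rw [star_add]; exact add_mem hx hy
    | smul c x _ hx => rw [star_smul]; exact Submodule.smul_mem _ _ hx

theorem mem_trigPoly {f : C(G, ℂ)} : f ∈ trigPoly G ↔ f ∈ Submodule.span ℂ (charSet G) := Iff.rfl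

/-- **The trigonometric polynomials are dense.** -/
theorem dense_span_charSet : Dense (Submodule.span ℂ (charSet G) : Set C(G, ℂ)) := by
  have h := ContinuousMap.starSubalgebra_topologicalClosure_eq_top_of_separatesPoints (trigPoly G)
    fun x y hxy => by
      obtain ⟨ψ, hc, hu, hne⟩ := exists_char_ne_one (a := x / y) fun e => hxy (div_eq_one.1 e)
      refine ⟨_, ⟨charFun ψ hc, Submodule.subset_span ⟨ψ, hc, hu, fun _ => rfl⟩, rfl⟩, fun e => ?_⟩
      refine hne ?_
      rw [map_div, div_eq_one]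
      exact Units.ext e
  intro f
  exact (SetLike.ext_iff.1 h f).2 (by trivial)

variable [MeasurableSpace G] [BorelSpace G] (μ : Measure G) [IsMulLeftInvariant μ]
  [IsProbabilityMeasure μ]

/-- A nontrivial character has integral `0`. -/
theorem integral_char_eq_zero {ψ : G →* ℂˣ} (hne : ψ ≠ 1) :
    ∫ x, ((ψ x : ℂˣ) : ℂ) ∂μ = 0 := by
  obtain ⟨g, hg⟩ : ∃ g, ψ g ≠ 1 := not_forall.1 fun h => hne (MonoidHom.ext h)
  have h1 := integral_mul_left_eq_self (μ := μ) (fun x => ((ψ x : ℂˣ) : ℂ)) g
  simp only [map_mul, Units.val_mul, integral_const_mul] at h1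
  rw [mul_left_eq_self₀] at h1
  exact h1.resolve_left fun e => hg (Units.ext e)

/-- **Weyl's criterion.** -/
theorem tendsto_integral_of_chars {ι : Type*} {l : Filter ι} (Φ : ι → C(G, ℂ) →ₗ[ℂ] ℂ) {B : ℝ}
    (hB : ∀ᶠ i in l, ∀ F, ‖Φ i F‖ ≤ B * ‖F‖) (h1 : Tendsto (fun i => Φ i 1) l (𝓝 1))
    (hψ : ∀ (ψ : G →* ℂˣ) (hc : Continuous ψ), (∀ x, ‖((ψ x : ℂˣ) : ℂ)‖ = 1) → ψ ≠ 1 →
      Tendsto (fun i => Φ i (charFun ψ hc)) l (𝓝 0))
    (F : C(G, ℂ)) : Tendsto (fun i => Φ i F) l (𝓝 (∫ x, F x ∂μ)) := by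
  have hspan : ∀ P ∈ Submodule.span ℂ (charSet G),
      Tendsto (fun i => Φ i P) l (𝓝 (∫ x, P x ∂μ)) := fun P hP => by
    induction hP using Submodule.span_induction with
    | mem f hf =>
      obtain ⟨ψ, hc, hu, he⟩ := hf
      rw [show f = charFun ψ hc from ContinuousMap.ext he]
      by_cases hne : ψ = 1
      · subst hne
        rw [show charFun (1 : G →* ℂˣ) hc = 1 from ContinuousMap.ext fun x => rfl]
        simpa using h1
      · rw [show ∫ x, charFun ψ hc x ∂μ = 0 from integral_char_eq_zero μ hne]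
        exact hψ ψ hc hu hne
    | zero => simpa using tendsto_const_nhds
    | add x y _ _ hx hy =>
      simp only [map_add, ContinuousMap.add_apply]
      rw [integral_add (integrable_of_continuous μ x.continuous)
        (integrable_of_continuous μ y.continuous)]
      exact hx.add hy
    | smul c x _ hx =>
      simp only [map_smul, ContinuousMap.smul_apply, smul_eq_mul, integral_const_mul]
      exact hx.const_mul c
  refine Metric.tendsto_nhds.2 fun ε hε => ?_
  set δ := ε / 2 / (max B 0 + 1)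
  have hδ : 0 < δ := by positivity
  obtain ⟨P, hP, hPF⟩ := Metric.mem_closure_iff.1 (dense_span_charSet F) δ hδ
  rw [dist_eq_norm] at hPF
  filter_upwards [hB, Metric.tendsto_nhds.1 (hspan P hP) (ε / 2) (half_pos hε)] with i hi hi'
  rw [dist_eq_norm] at hi' ⊢
  have e : Φ i F - ∫ x, F x ∂μ =
      Φ i (F - P) + (Φ i P - ∫ x, P x ∂μ) - integralCLM μ (F - P) := by
    rw [map_sub, map_sub, integralCLM_apply, integralCLM_apply]
    ring
  rw [e]
  have n1 : ‖Φ i (F - P)‖ ≤ max B 0 * δ := (hi _).trans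
    (mul_le_mul (le_max_left _ _) hPF.le (norm_nonneg _) (le_max_right _ _))
  have n2 : ‖integralCLM μ (F - P)‖ ≤ δ := (norm_integralCLM_le μ _).trans hPF.le
  have n3 : max B 0 * δ + δ = ε / 2 := by
    rw [← add_one_mul]
    exact mul_div_cancel₀ _ (by positivity)
  calc _ ≤ ‖Φ i (F - P) + (Φ i P - ∫ x, P x ∂μ)‖ + ‖integralCLM μ (F - P)‖ := norm_sub_le _ _
    _ ≤ ‖Φ i (F - P)‖ + ‖Φ i P - ∫ x, P x ∂μ‖ + ‖integralCLM μ (F - P)‖ :=
      add_le_add (norm_add_le _ _) le_rfl
    _ < ε := by linarith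

/-- **Fourier uniqueness.** -/
theorem eq_zero_of_coeff [IsOpenPosMeasure μ] {F : C(G, ℂ)}
    (h : ∀ ψ : G →* ℂˣ, Continuous ψ → (∀ x, ‖((ψ x : ℂˣ) : ℂ)‖ = 1) →
      ∫ x, starRingEnd ℂ ((ψ x : ℂˣ) : ℂ) * F x ∂μ = 0) : F = 0 := by
  let Φ : C(G, ℂ) →L[ℂ] ℂ := (integralCLM μ).comp (ContinuousLinearMap.mul ℂ C(G, ℂ) F)
  have hz : ∀ P ∈ Submodule.span ℂ (charSet G), Φ P = 0 := fun P hP => by
    induction hP using Submodule.span_induction with
    | mem f hf =>
      obtain ⟨ψ, hc, hu, he⟩ := star_mem_charSet hf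
      have h1 := h ψ hc hu
      simp only [← he, ContinuousMap.star_apply, RCLike.star_def, Complex.conj_conj] at h1
      rw [← h1]
      exact integral_congr_ae (Eventually.of_forall fun x => mul_comm _ _)
    | zero => exact map_zero Φ
    | add x y _ _ hx hy => rw [map_add, hx, hy, add_zero]
    | smul c x _ hx => rw [map_smul, hx, smul_zero]
  have h0 : Φ (star F) = 0 :=
    (isClosed_eq Φ.continuous continuous_const).closure_subset_iff.2
      (fun P hP => hz P hP) (dense_span_charSet (star F))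
  by_contra hne
  obtain ⟨x, hx⟩ := DFunLike.ne_iff.1 hne
  have hp : 0 < ∫ y, ‖F y‖ ^ 2 ∂μ :=
    Continuous.integral_pos_of_hasCompactSupport_nonneg_nonzero (x := x) (by fun_prop)
      (HasCompactSupport.of_compactSpace _) (fun y => by positivity)
      (pow_ne_zero _ (norm_ne_zero_iff.2 hx))
  have e : Φ (star F) = ((∫ y, ‖F y‖ ^ 2 ∂μ : ℝ) : ℂ) := by
    rw [← integral_complex_ofReal]
    refine integral_congr_ae (Eventually.of_forall fun y => ?_)
    show F y * starRingEnd ℂ (F y) = ((‖F y‖ ^ 2 : ℝ) : ℂ)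
    rw [Complex.mul_conj', Complex.ofReal_pow]
  rw [e, Complex.ofReal_eq_zero] at h0
  exact hp.ne' h0

end FA.CompactAbelian

end
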