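import Fermat.Agent.CompactAbelian.Convolution
import Mathlib.Analysis.CStarAlgebra.GelfandDuality
import Mathlib.MeasureTheory.Measure.Haar.Unique
import Mathlib.Topology.UrysohnsLemma

/-!
# The characters of a compact abelian group separate points

The translations and the convolutions generate a commutative Banach algebra of operators.
Convolution by a symmetric function `h ≠ 0` has positive spectral radius, the `L²` norms of the
iterates being logarithmically convex, so some character of the algebra is not zero at it; that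
character restricted to the translations is a continuous unitary character of the group.
-/

set_option autoImplicit false
set_option linter.unusedSectionVars false
set_option linter.style.haveILetI false

noncomputable section

open MeasureTheory MeasureTheory.Measure Topology Filter
open scoped ENNReal NNReal

namespace FA.CompactAbelian

variable {G : Type*} [TopologicalSpace G] [CommGroup G] [IsTopologicalGroup G] [CompactSpace G]
  [T2Space G] [MeasurableSpace G] [BorelSpace G] (μ : Measure G) [IsMulLeftInvariant μ]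
  [IsProbabilityMeasure μ] [IsInvInvariant μ]

/-- The square of the `L²` norm. -/
def normTwo (u : C(G, ℂ)) : ℝ := ∫ x, ‖u x‖ ^ 2 ∂μ

theorem normTwo_le (u : C(G, ℂ)) : normTwo μ u ≤ ‖u‖ ^ 2 := by
  refine (integral_mono (integrable_real_of_continuous μ (by fun_prop)) (integrable_const _)
    fun x => pow_le_pow_left₀ (norm_nonneg _) (u.norm_coe_le_norm x) 2).trans_eq ?_
  rw [integral_const, probReal_univ, one_smul]

variable [IsOpenPosMeasure μ]

theorem normTwo_pos {u : C(G, ℂ)} (hu : u ≠ 0) : 0 < normTwo μ u := by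
  obtain ⟨x, hx⟩ := DFunLike.ne_iff.1 hu
  exact Continuous.integral_pos_of_hasCompactSupport_nonneg_nonzero (x := x) (by fun_prop)
    (HasCompactSupport.of_compactSpace _) (fun y => by positivity)
    (pow_ne_zero _ (norm_ne_zero_iff.2 hx))

/-- **The iterates of a symmetric convolution grow at least geometrically.** -/
theorem exists_pow_lower {h : C(G, ℂ)} (hh : ∀ y, starRingEnd ℂ (h y⁻¹) = h y) (hne : h ≠ 0) :
    ∃ r : ℝ, 0 < r ∧ ∀ j : ℕ, r ^ j * normTwo μ h ≤ normTwo μ ((convOp μ h ^ j) h) := by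
  set T := convOp μ h with hT
  set u : ℕ → C(G, ℂ) := fun j => (T ^ j) h with hu
  have hsucc : ∀ j, u (j + 1) = T (u j) := fun j => by
    show (T ^ (j + 1)) h = T ((T ^ j) h)
    rw [pow_succ']
    rfl
  set m : ℕ → ℝ := fun j => normTwo μ (u j) with hm
  have h0 : 0 < m 0 := normTwo_pos μ hne
  have h1 : 0 < m 1 := by
    refine normTwo_pos μ fun e => h0.ne' ?_
    rw [hsucc] at e
    have e1 := congrArg (fun f : C(G, ℂ) => f 1) e
    simp only [hT, show u 0 = h from rfl, convOp_apply, mul_one] at e1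
    have e2 : ∀ y, h y * h y⁻¹ = ((‖h y‖ ^ 2 : ℝ) : ℂ) := fun y => by
      rw [Complex.ofReal_pow, ← Complex.mul_conj', ← hh y, Complex.conj_conj, hh y]
    simp only [e2, integral_complex_ofReal] at e1
    exact Complex.ofReal_eq_zero.1 e1
  -- log-convexity
  have hconv : ∀ j, m (j + 1) ^ 2 ≤ m j * m (j + 2) := fun j => by
    set a := u j
    set b := u (j + 2)
    have hab : ∫ x, (starRingEnd ℂ (a x) * b x).re ∂μ = m (j + 1) := by
      have e1 : ∫ x, starRingEnd ℂ (u (j + 1) x) * u (j + 1) x ∂μ =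
          ∫ x, starRingEnd ℂ (a x) * b x ∂μ := by
        rw [hsucc j, show b = T (u (j + 1)) from hsucc (j + 1)]
        rw [hsucc j]
        exact integral_conj_convOp μ hh _ _
      simp only [Complex.conj_mul', ← Complex.ofReal_pow, integral_complex_ofReal] at e1
      rw [show (fun x => (starRingEnd ℂ (a x) * b x).re) =
        fun x => RCLike.re (starRingEnd ℂ (a x) * b x) from rfl,
        integral_re (integrable_of_continuous μ (by fun_prop)), ← e1]
      exact Complex.ofReal_re _
    have hq : ∀ t : ℝ, 0 ≤ m (j + 2) * (t * t) + 2 * m (j + 1) * t + m j := fun t => by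
      have i1 := integrable_real_of_continuous μ (show Continuous fun x => ‖a x‖ ^ 2 by fun_prop)
      have i2 := integrable_real_of_continuous μ
        (show Continuous fun x => (starRingEnd ℂ (a x) * b x).re by fun_prop)
      have i3 := integrable_real_of_continuous μ (show Continuous fun x => ‖b x‖ ^ 2 by fun_prop)
      have e : ∀ x, ‖a x + (t : ℂ) * b x‖ ^ 2 =
          ‖a x‖ ^ 2 + 2 * t * (starRingEnd ℂ (a x) * b x).re + t * t * ‖b x‖ ^ 2 := fun x => by
        simp only [← Complex.normSq_eq_norm_sq, Complex.normSq_apply, Complex.add_re,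
          Complex.add_im, Complex.mul_re, Complex.mul_im, Complex.conj_re, Complex.conj_im,
          Complex.ofReal_re, Complex.ofReal_im]
        ring
      have hpos : (0 : ℝ) ≤ ∫ x, ‖a x + (t : ℂ) * b x‖ ^ 2 ∂μ :=
        integral_nonneg fun x => by positivity
      simp only [e] at hpos
      rw [integral_add (f := fun x => ‖a x‖ ^ 2 + 2 * t * (starRingEnd ℂ (a x) * b x).re)
          (i1.add (i2.const_mul (2 * t))) (i3.const_mul (t * t)),
        integral_add i1 (i2.const_mul (2 * t)), integral_const_mul, integral_const_mul, hab] at hpos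
      simp only [hm, normTwo]
      simp only [hm, normTwo] at hpos
      linarith
    have hd := discrim_le_zero hq
    rw [discrim] at hd
    nlinarith
  set r := m 1 / m 0
  have hr : 0 < r := div_pos h1 h0
  have key : ∀ j, 0 < m j ∧ r * m j ≤ m (j + 1) := fun j => by
    induction j with
    | zero => exact ⟨h0, (div_mul_cancel₀ _ h0.ne').le⟩
    | succ j ih =>
      have hj : 0 < m (j + 1) := lt_of_lt_of_le (mul_pos hr ih.1) ih.2
      refine ⟨hj, le_of_mul_le_mul_left ?_ ih.1⟩
      calc m j * (r * m (j + 1)) = r * m j * m (j + 1) := by ring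
        _ ≤ m (j + 1) * m (j + 1) := mul_le_mul_of_nonneg_right ih.2 hj.le
        _ ≤ m j * m (j + 2) := by rw [← sq]; exact hconv j
  refine ⟨r, hr, fun j => ?_⟩
  show r ^ j * m 0 ≤ m j
  induction j with
  | zero => simp
  | succ j ih =>
    refine le_trans ?_ (key j).2
    rw [pow_succ', mul_assoc]
    exact mul_le_mul_of_nonneg_left ih hr.le

/-! ### The algebra -/

/-- The generators. -/
def gens : Set (C(G, ℂ) →L[ℂ] C(G, ℂ)) := Set.range shift ∪ Set.range (convOp μ)

/-- The operator algebra: the double centraliser of translations and convolutions. -/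
abbrev opAlg : Subalgebra ℂ (C(G, ℂ) →L[ℂ] C(G, ℂ)) :=
  Subalgebra.centralizer ℂ
    ((Subalgebra.centralizer ℂ (gens μ) : Subalgebra ℂ (C(G, ℂ) →L[ℂ] C(G, ℂ))) :
      Set (C(G, ℂ) →L[ℂ] C(G, ℂ)))

theorem gens_comm {x y : C(G, ℂ) →L[ℂ] C(G, ℂ)} (hx : x ∈ gens μ) (hy : y ∈ gens μ) :
    x * y = y * x := by
  rcases hx with ⟨a, rfl⟩ | ⟨f, rfl⟩ <;> rcases hy with ⟨b, rfl⟩ | ⟨g, rfl⟩
  · rw [← shift_mul, ← shift_mul, mul_comm]
  · rw [convOp_shift]
  · rw [convOp_shift]
  · rw [convOp_comm]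

theorem gens_subset : gens μ ⊆ (opAlg μ : Set (C(G, ℂ) →L[ℂ] C(G, ℂ))) := fun _ hx =>
  (Subalgebra.mem_centralizer_iff ℂ).2 fun _ hy => (((Subalgebra.mem_centralizer_iff ℂ).1 hy) _ hx).symm

theorem opAlg_comm {x y : C(G, ℂ) →L[ℂ] C(G, ℂ)} (hx : x ∈ opAlg μ) (hy : y ∈ opAlg μ) :
    x * y = y * x := by
  have hy' : y ∈ Subalgebra.centralizer ℂ (gens μ) :=
    (Subalgebra.mem_centralizer_iff ℂ).2 fun g hg =>
      (Subalgebra.mem_centralizer_iff ℂ).1 hy g ((Subalgebra.mem_centralizer_iff ℂ).2 fun g' hg' =>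
        gens_comm μ hg' hg)
  exact ((Subalgebra.mem_centralizer_iff ℂ).1 hx y hy').symm

instance normedCommRing_opAlg : NormedCommRing (opAlg μ) :=
  { (SubringClass.toNormedRing (opAlg μ) : NormedRing (opAlg μ)) with
    mul_comm := fun x y => Subtype.ext (opAlg_comm μ x.2 y.2) }

instance completeSpace_opAlg : CompleteSpace (opAlg μ) := by
  have h : IsClosed (SetLike.coe (opAlg μ)) := by
    rw [Subalgebra.coe_centralizer]
    exact Set.isClosed_centralizer _
  exact completeSpace_coe_iff_isComplete.2 h.isComplete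

/-- A translation in the algebra. -/
def shiftA (g : G) : opAlg μ := ⟨shift g, gens_subset μ (Or.inl ⟨g, rfl⟩)⟩

/-- A convolution in the algebra. -/
def convA (f : C(G, ℂ)) : opAlg μ := ⟨convOp μ f, gens_subset μ (Or.inr ⟨f, rfl⟩)⟩

/-- **A symmetric convolution is not quasinilpotent.** -/
theorem exists_alg_char_ne_zero {h : C(G, ℂ)} (hh : ∀ y, starRingEnd ℂ (h y⁻¹) = h y)
    (hne : h ≠ 0) : ∃ ω : WeakDual.characterSpace ℂ (opAlg μ), ω (convA μ h) ≠ 0 := by
  haveI : Nontrivial (opAlg μ) := ⟨⟨0, 1, fun e => by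
    have := congrArg (fun a : opAlg μ => ((a : C(G, ℂ) →L[ℂ] C(G, ℂ)) (ContinuousMap.const G 1)) 1) e
    simp at this⟩⟩
  obtain ⟨r, hr, hlow⟩ := exists_pow_lower μ hh hne
  have hh0 : 0 < ‖h‖ := norm_pos_iff.2 hne
  set s := Real.sqrt r
  set c := Real.sqrt (normTwo μ h) / ‖h‖ with hc
  have hcpos : 0 < c := div_pos (Real.sqrt_pos.2 (normTwo_pos μ hne)) hh0
  have hpow : ∀ j : ℕ, s ^ j * c ≤ ‖(convA μ h) ^ j‖ := fun j => by
    have h1 : normTwo μ ((convOp μ h ^ j) h) ≤ (‖convOp μ h ^ j‖ * ‖h‖) ^ 2 :=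
      (normTwo_le μ _).trans
        (pow_le_pow_left₀ (norm_nonneg _) ((convOp μ h ^ j).le_opNorm h) 2)
    have h2 := Real.sqrt_le_sqrt ((hlow j).trans h1)
    rw [Real.sqrt_sq (by positivity), Real.sqrt_mul (by positivity),
      show Real.sqrt (r ^ j) = s ^ j by
        rw [Real.sqrt_eq_iff_eq_sq (by positivity) (by positivity), ← pow_mul, mul_comm, pow_mul,
          Real.sq_sqrt hr.le]] at h2
    rw [hc, ← mul_div_assoc, div_le_iff₀ hh0]
    exact h2
  have hrad : ENNReal.ofReal s ≤ spectralRadius ℂ (convA μ h) := by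
    have hlim : Tendsto (fun j : ℕ => s * c ^ (1 / j : ℝ)) atTop (𝓝 (s * c ^ (0 : ℝ))) := by
      refine ((Real.continuousAt_const_rpow hcpos.ne').tendsto.comp ?_).const_mul s
      exact tendsto_one_div_atTop_nhds_zero_nat
    rw [Real.rpow_zero, mul_one] at hlim
    refine le_of_tendsto_of_tendsto ((ENNReal.continuous_ofReal.tendsto _).comp hlim)
      (spectrum.pow_norm_pow_one_div_tendsto_nhds_spectralRadius (convA μ h)) ?_
    filter_upwards [eventually_gt_atTop 0] with j hj
    refine ENNReal.ofReal_le_ofReal ?_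
    calc s * c ^ (1 / j : ℝ) = (s ^ j * c) ^ (1 / j : ℝ) := by
          rw [Real.mul_rpow (by positivity) hcpos.le, ← Real.rpow_natCast, ← Real.rpow_mul
            (Real.sqrt_nonneg r), mul_one_div_cancel (Nat.cast_ne_zero.2 hj.ne'), Real.rpow_one]
      _ ≤ ‖(convA μ h) ^ j‖ ^ (1 / j : ℝ) :=
          Real.rpow_le_rpow (by positivity) (hpow j) (by positivity)
  obtain ⟨z, hz, hzr⟩ := spectrum.exists_nnnorm_eq_spectralRadius (convA μ h)
  obtain ⟨ω, hω⟩ := WeakDual.CharacterSpace.mem_spectrum_iff_exists.1 hz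
  refine ⟨ω, fun h0 => ?_⟩
  rw [h0] at hω
  rw [← hzr, ← hω, nnnorm_zero, ENNReal.coe_zero] at hrad
  exact (ENNReal.ofReal_pos.2 (Real.sqrt_pos.2 hr)).not_ge hrad

theorem shiftA_mul (g h : G) : shiftA μ (g * h) = shiftA μ g * shiftA μ h :=
  Subtype.ext (shift_mul g h)

/-- **The character of the group from one of the algebra.** -/
theorem exists_char_of_alg_char {ω : WeakDual.characterSpace ℂ (opAlg μ)} {f : C(G, ℂ)}
    (hf : ω (convA μ f) ≠ 0) :
    ∃ ψ : G →* ℂˣ, Continuous ψ ∧ (∀ x, ‖((ψ x : ℂˣ) : ℂ)‖ = 1) ∧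
      ∀ x, ((ψ x : ℂˣ) : ℂ) = ω (shiftA μ x) := by
  haveI : Nontrivial C(G, ℂ) :=
    ⟨⟨0, 1, fun e => zero_ne_one (congrArg (fun u : C(G, ℂ) => u 1) e)⟩⟩
  haveI : NormOneClass (opAlg μ) := ⟨by
    show ‖(1 : C(G, ℂ) →L[ℂ] C(G, ℂ))‖ = 1
    exact norm_one⟩
  have h1 : ω (shiftA μ 1) = 1 := by
    rw [show shiftA μ 1 = 1 from Subtype.ext shift_one, map_one]
  have hmul : ∀ x y, ω (shiftA μ (x * y)) = ω (shiftA μ x) * ω (shiftA μ y) := fun x y => by
    rw [shiftA_mul, map_mul]
  have hne : ∀ x, ω (shiftA μ x) ≠ 0 := fun x h0 => by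
    have := hmul x x⁻¹
    rw [mul_inv_cancel, h1, h0, zero_mul] at this
    exact one_ne_zero this
  have hle : ∀ x, ‖ω (shiftA μ x)‖ ≤ 1 := fun x =>
    (spectrum.norm_le_norm_of_mem (WeakDual.CharacterSpace.apply_mem_spectrum ω _)).trans
      (norm_shift_le x)
  let ψ : G →* ℂˣ :=
    { toFun := fun x => Units.mk0 _ (hne x)
      map_one' := Units.ext h1
      map_mul' := fun x y => Units.ext (hmul x y) }
  refine ⟨ψ, ?_, fun x => ?_, fun x => rfl⟩
  · have hval : Continuous fun x => ω (shiftA μ x) := by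
      have e : ∀ x, ω (shiftA μ x) = ω (convA μ (shift x f)) / ω (convA μ f) := fun x => by
        rw [eq_div_iff hf, ← map_mul]
        exact congrArg ω (Subtype.ext (convOp_shift_left μ f x).symm)
      simp only [e]
      exact ((WeakDual.CharacterSpace.toCLM ω).continuous.comp
        ((continuous_convOp_shift μ f).subtype_mk _)).div_const _
    exact Units.continuous_iff.2 ⟨hval, by
      simp only [Units.val_inv_eq_inv_val]
      exact hval.inv₀ hne⟩
  · refine le_antisymm (hle x) ?_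
    have h2 := hle x⁻¹
    have h3 : ‖ω (shiftA μ x)‖ * ‖ω (shiftA μ x⁻¹)‖ = 1 := by
      rw [← norm_mul, ← hmul, mul_inv_cancel, h1, norm_one]
    exact h3.ge.trans (mul_le_of_le_one_right (norm_nonneg _) h2)

end FA.CompactAbelian

namespace FA.CompactAbelian

variable {G : Type*} [TopologicalSpace G] [CommGroup G] [IsTopologicalGroup G] [CompactSpace G]
  [T2Space G]

/-- **The characters separate points.** -/
theorem exists_char_ne_one {a : G} (ha : a ≠ 1) :
    ∃ ψ : G →* ℂˣ, Continuous ψ ∧ (∀ x, ‖((ψ x : ℂˣ) : ℂ)‖ = 1) ∧ ψ a ≠ 1 := by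
  letI : MeasurableSpace G := borel G
  haveI : BorelSpace G := ⟨rfl⟩
  set K₀ : TopologicalSpace.PositiveCompacts G :=
    ⟨⟨Set.univ, isCompact_univ⟩, by simp⟩
  set μ := haarMeasure K₀
  haveI : IsProbabilityMeasure μ := ⟨haarMeasure_self (K₀ := K₀)⟩
  by_contra hall
  push Not at hall
  obtain ⟨g, hg0, hg1, -⟩ := exists_continuous_zero_one_of_isClosed
    (s := ({a, a⁻¹} : Set G)) (t := {1}) (Set.toFinite _).isClosed isClosed_singleton (by
      rw [Set.disjoint_singleton_right]
      rintro (e | e)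
      · exact ha e.symm
      · exact ha (inv_eq_one.1 (Set.mem_singleton_iff.1 e).symm))
  let f : C(G, ℂ) := ⟨fun y => ((g y * g y⁻¹ : ℝ) : ℂ),
    Complex.continuous_ofReal.comp (g.continuous.mul (g.continuous.comp continuous_inv))⟩
  set d : C(G, ℂ) := shift a f + shift a⁻¹ f - 2 • f with hd
  have hf : ∀ y, f y⁻¹ = f y := fun y => by
    show ((g y⁻¹ * g y⁻¹⁻¹ : ℝ) : ℂ) = ((g y * g y⁻¹ : ℝ) : ℂ)
    rw [inv_inv, mul_comm]
  have hsymm : ∀ y, starRingEnd ℂ (d y⁻¹) = d y := fun y => by
    simp only [hd, ContinuousMap.sub_apply, ContinuousMap.add_apply, ContinuousMap.smul_apply,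
      shift_apply, map_sub, map_add, map_nsmul, inv_inv]
    rw [show a⁻¹ * y⁻¹ = (a * y)⁻¹ by rw [mul_inv], show a * y⁻¹ = (a⁻¹ * y)⁻¹ by
      rw [mul_inv, inv_inv], hf, hf, hf]
    simp only [f, ContinuousMap.coe_mk, Complex.conj_ofReal]
    ring
  have hd0 : d ≠ 0 := fun e => by
    have e1 := congrArg (fun u : C(G, ℂ) => u 1) e
    have ga : g a = 0 := hg0 (Set.mem_insert _ _)
    have ga' : g a⁻¹ = 0 := hg0 (Set.mem_insert_of_mem _ rfl)
    have g1 : g 1 = 1 := hg1 rfl
    simp only [hd, f, ContinuousMap.sub_apply, ContinuousMap.add_apply, ContinuousMap.smul_apply,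
      ContinuousMap.zero_apply, ContinuousMap.coe_mk, shift_apply, inv_inv, inv_one, mul_one, ga,
      ga', g1] at e1
    norm_num at e1
  obtain ⟨ω, hω⟩ := exists_alg_char_ne_zero μ hsymm hd0
  obtain ⟨ψ, hc, hu, hψ⟩ := exists_char_of_alg_char μ hω
  have hone : ω (shiftA μ a) = 1 ∧ ω (shiftA μ a⁻¹) = 1 := by
    rw [← hψ, ← hψ, map_inv, hall ψ hc hu, inv_one, Units.val_one]
    exact ⟨rfl, rfl⟩
  refine hω ?_
  have hdA : convA μ d = shiftA μ a * convA μ f + shiftA μ a⁻¹ * convA μ f - 2 • convA μ f :=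
    Subtype.ext (by
      show convOp μ d = shift a * convOp μ f + shift a⁻¹ * convOp μ f - 2 • convOp μ f
      rw [hd, map_sub, map_add, map_nsmul, convOp_shift_left, convOp_shift_left])
  rw [hdA, map_sub, map_add, map_nsmul, map_mul, map_mul, hone.1, hone.2]
  ring

end FA.CompactAbelian

end
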